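import Fermat.Statements.S05
import Fermat.Agent.S05.Transfer_helper52
import Fermat.Agent.S05.A3_helper13
import Fermat.Agent.S05.Frey_helper98
import Fermat.Agent.S05.EFG_helper17
import Fermat.Agent.S05.EFM_helper15
import Fermat.Agent.S05.Wiring_helper15

set_option autoImplicit false
open WeierstrassCurve WeierstrassCurve.Affine WeierstrassCurve.Affine.Point
open CuspForm ModularFormClass UpperHalfPlane
open FreyPackage

namespace Fermat.Agent.S05

theorem result (P : FreyPackage) {q : ℕ} (hq : q.Prime) (hq2 : q ≠ 2) (hqp : q ≠ P.p) : P.GaloisRepUnramifiedAt q :=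
  helper15.wiring_of (fun h2 W₁ W₂ r => H52.exists_transfer h2 W₁ W₂ r) exists_qval H98.frey_model
    inertia_fixes_torsion_good inertia_fixes_torsion_mult P hq hq2 hqp

end Fermat.Agent.S05
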