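import Fermat.Statements.S07
import Fermat.Prelude.Thm_ModularForm_sturm_bound_Gamma0
import Fermat.Prelude.Thm_CongruenceSubgroup_one_mem_strictPeriods_Gamma0

set_option autoImplicit false
open WeierstrassCurve WeierstrassCurve.Affine WeierstrassCurve.Affine.Point
open CuspForm ModularFormClass UpperHalfPlane
open ModularForm

namespace Fermat.Agent.S07

theorem index_Gamma0_two_le : (CongruenceSubgroup.Gamma0 2).index ≤ 4 := by
  classical
  let φ : Matrix.SpecialLinearGroup (Fin 2) ℤ → ZMod 2 × ZMod 2 :=
    fun g => (((g 0 0 : ℤ) : ZMod 2), ((g 1 0 : ℤ) : ZMod 2))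
  have hφ : ∀ g g' : Matrix.SpecialLinearGroup (Fin 2) ℤ, φ g = φ g' →
      g⁻¹ * g' ∈ CongruenceSubgroup.Gamma0 2 := by
    intro g g' h
    rw [CongruenceSubgroup.Gamma0_mem]
    simp only [φ, Prod.mk.injEq] at h
    obtain ⟨h0, h1⟩ := h
    have : (g⁻¹ * g') 1 0 = - g 1 0 * g' 0 0 + g 0 0 * g' 1 0 := by
      rw [Matrix.SpecialLinearGroup.coe_mul, Matrix.SpecialLinearGroup.coe_inv,
        Matrix.adjugate_fin_two, Matrix.mul_apply, Fin.sum_univ_two]
      simp
    rw [this]
    push_cast
    rw [h0, h1]
    ring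
  have hinj : Function.Injective
      (fun q : Matrix.SpecialLinearGroup (Fin 2) ℤ ⧸ CongruenceSubgroup.Gamma0 2 =>
        φ q.out) := by
    intro q q' h
    have := hφ _ _ h
    rw [← QuotientGroup.out_eq' q, ← QuotientGroup.out_eq' q']
    exact QuotientGroup.eq.mpr this
  have := Nat.card_le_card_of_injective _ hinj
  simpa [Subgroup.index] using this

theorem result (f : CuspForm (CongruenceSubgroup.Gamma0 2) 2) : f = 0 := by
  have hidx := index_Gamma0_two_le
  have key : (f : ModularForm (CongruenceSubgroup.Gamma0 2) 2) = 0 := by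
    apply ModularForm.sturm_bound_Gamma0 2
    intro n hn
    have h0 : n = 0 := by
      have : (2 * ((CongruenceSubgroup.Gamma0 2).index : ℤ)).toNat / 12 = 0 := by
        omega
      omega
    subst h0
    exact CuspFormClass.qExpansion_coeff_zero f one_pos
      (CongruenceSubgroup.one_mem_strictPeriods_Gamma0 2)
  ext z
  have := congrArg (fun g : ModularForm (CongruenceSubgroup.Gamma0 2) 2 => g z) key
  simpa using this

end Fermat.Agent.S07
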