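import Fermat.Statements.S11
import Fermat.Agent.S10.FreyGlue_helper60
import Fermat.Agent.S10.CaseI_helper42
import Fermat.Agent.S10.KummerCount_helper8
import Fermat.Agent.S10.Dlog11_helper9
import Fermat.Agent.S10.PIDb11_helper77

set_option autoImplicit false
open WeierstrassCurve WeierstrassCurve.Affine WeierstrassCurve.Affine.Point
open CuspForm ModularFormClass UpperHalfPlane
open FreyPackage

namespace Fermat.Agent.S11

open NumberField in
/-- Kummer's lemma for the exponent `11`. -/
theorem kummer_eleven (K : Type) [Field K] [NumberField K] [IsCyclotomicExtension {11} ℚ K]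
    (u : (𝓞 K)ˣ) (h : ∃ n : ℤ, ((11 : ℕ) : 𝓞 K) ∣ (u : 𝓞 K) - n) : ∃ v : (𝓞 K)ˣ, u = v ^ 11 := by
  have : Fact (Nat.Prime 11) := ⟨by norm_num⟩
  obtain ⟨S, hS, hrep⟩ := Fermat.Agent.S10.H08.exists_unit_reps K 11
  rw [Fermat.Agent.S10.H08.rank_add_one_of_cyclotomic (p := 11) (by norm_num) K] at hS
  exact Fermat.Agent.S10.H08.exists_pow_eq_of_map_eq_one (p := 11) (m := 5)
    (Fermat.Agent.S10.H09.dlog 11 K) (Fermat.Agent.S10.H09.w11 K) (Fermat.Agent.S10.H09.indep11 K)
    S hS hrep u (Fermat.Agent.S10.H09.dlog_eq_one_of_congr 11 K u h)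

/-- There is no Frey package with exponent `11` (Fermat's Last Theorem for exponent `11`). -/
theorem freyPackage_eleven_false (P : FreyPackage) (hp : P.p = 11) : False := by
  have : Fact (Nat.Prime 11) := ⟨by norm_num⟩
  have : IsCyclotomicExtension {11} ℚ (CyclotomicField 11 ℚ) :=
    CyclotomicField.isCyclotomicExtension 11 ℚ
  have := Fermat.Agent.S10.H77.eleven_pid (CyclotomicField 11 ℚ)
  exact Fermat.Agent.S10.H60.freyPackage_false P hp (K := CyclotomicField 11 ℚ)
    (fun u hu => kummer_eleven _ u hu)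
    (fun a b c hab h => Fermat.Agent.S10.H42.caseI (Or.inr (Or.inr (Or.inl rfl))) a b c hab h)

theorem result (P : FreyPackage) (hp : P.p = 11) : ¬ HasGaloisStableCofixedLine (K := AlgebraicClosure ℚ) ℚ P.freyCurve P.p := by
  exact (freyPackage_eleven_false P hp).elim

end Fermat.Agent.S11
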