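import Fermat.Statements.S13
import Fermat.Agent.S13.Assembly_helper16
import Fermat.Agent.S13.T_helper83
import Fermat.Agent.S13.Minkowski_helper13
import Fermat.Agent.S13.GU_helper8
import Fermat.Agent.S13.W2b_helper22
import Fermat.Agent.S13.Rat2Final_helper28
import Fermat.Agent.S13.LpFinal_helper15
import Fermat.Agent.S05
import Fermat.Agent.S54.Frob

/-!
S13: if the mod `p` representation of the Frey curve is reducible, it has a Galois-stable
cofixed line.

Blocks (see `Fermat/Agent/S13/Assembly_helper16.lean` for the assembly `s13_of`):
* (T1), (T2) torsion is nontrivial with at most `p²` points: x-only ladder (helper75) and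
  transfer to the Legendre model (helper83);
* (G) Minkowski bridge (helper13, helper87);
* (L2a), (L2b) the prime `2`: split-coordinates toolkit (helper64 and team), wrappers helper8,
  helper22, helper28;
* (Lp) the prime `p` (helper15, helper72, helper9, helper8);
* (Lq) = S05; places over every prime: S54.
-/

set_option autoImplicit false
open WeierstrassCurve WeierstrassCurve.Affine WeierstrassCurve.Affine.Point
open CuspForm ModularFormClass UpperHalfPlane
open FreyPackage

namespace Fermat.Agent.S13

theorem result (P : FreyPackage) (hred : ¬ GaloisRepIsIrreducible (K := AlgebraicClosure ℚ) ℚ P.freyCurve P.p) : HasGaloisStableCofixedLine (K := AlgebraicClosure ℚ) ℚ P.freyCurve P.p := by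
  have hT1 : StmtT1 := H83.frey_torsion_nontrivial
  have hT2 : StmtT2 := H83.frey_torsion_card_le
  have hG : StmtG := H13.minkowski_bridge
  have hL2a : StmtL2a := fun P A hA σ hσ x => H08.frey_inertia_two_unipotent P A hA σ hσ x
  have hL2b : StmtL2b := fun P x hx =>
    H22.frey_no_rational_torsion_of (fun hW hN => no_rational_torsion2 hW hN) P x hx
  have hLp : StmtLp := stmtLp hT2
  have hLq : StmtLq := fun P _ hq hq2 hqp => Fermat.Agent.S05.result P hq hq2 hqp
  have hE : StmtE := fun _ hq => Fermat.Agent.S54.H86.exists_valuationSubring_nonunits hq
  exact s13_of hT1 hT2 hG hL2a hL2b hLp hLq hE P hred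

end Fermat.Agent.S13
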