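-- Statement S14 (row 13): ExtCitation.extVanishingCts_of_three_le.
-- Assembly of the S14 team's nodes: Kummer generator (KG), singular primary number (SP),
-- and the arithmetic side (NSP = P3 + unit lemma + class lemma).
import Fermat.Statements.S14
import Fermat.Agent.S14.Assembly_helper12
import Fermat.Agent.S14.U3_helper17
import Fermat.Agent.S14.SP_helper87

set_option autoImplicit false
open ExtCitation

namespace Fermat.Agent.S14

theorem result {p : ℕ} [Fact p.Prime] (h3 : 3 ≤ p) :
    ExtCitation.ExtVanishingCts p :=
  goal_of2 H12.stmtKG H87.stmtSP (H12.stmtNSP_of H17.stmtU3) h3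

end Fermat.Agent.S14
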