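-- Statement S18 (row 17): the frozen statement
-- ModularCurve.FermatFrozen.S18 (Fermat/Statements/S18.lean; the theorem
-- ModularCurve.eq_zero_of_reductionModL_eq_zero_of_nsmul_eq_zero).
-- Proof: the S18 chain of record, assembled by helper19 in
-- Fermat/Agent/S18/TopFin_helper19.lean (the Kummer statement of the K0-model at the three
-- charts j / t_2 / t_3, then the arrow of ModelArrow_helper60).
import Fermat.Statements.S18
import Fermat.Agent.S18.TopFin_helper19

set_option autoImplicit false
open ModularCurve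

namespace Fermat.Agent.S18

theorem result (N : ℕ) [NeZero N] {ℓ : ℕ}
    [Fact ℓ.Prime] (hℓN : ¬ ℓ ∣ N) (A : ValuationSubring (AlgebraicClosure ℚ)) (hA : A.LiesOverPrime ℓ)
    (h : ModularCurve.ReductionInputsModL A N) (m : ℕ) (hm : ¬ ℓ ∣ m) (z : ModularCurve.JZero N)
    (hmz : m • z = 0) (hz : ModularCurve.reductionModL A N z = 0) :
    z = 0 :=
  Fermat.Agent.S18.H19.s18 N hℓN A hA h m hm z hmz hz

end Fermat.Agent.S18
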