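-- Statement S20: dimension of the space of weight two cusp forms on Gamma0(N).
-- Route: the module of all modular forms on Gamma0(N) is free over the level one forms, with a
-- basis indexed by the cosets; the weights of the basis are pinned down by the modular Wronskian,
-- its growth at the cusp and the traces at the elliptic points; the dual basis gives the cusp forms.
import Fermat.Statements.S20
import Fermat.Agent.S20.Assembly_helper78
import Fermat.Agent.S20.FreeExists_helper78
import Fermat.Agent.S20.BasicWeights_helper30
import Fermat.Agent.S20.CuspMap_helper36
import Fermat.Agent.S20.DeltaAsymp_helper78

set_option autoImplicit false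
open CuspForm

namespace Fermat.Agent.S20

theorem result (N : ℕ) [NeZero N] :
    (Module.finrank ℂ (CuspForm (CongruenceSubgroup.Gamma0 N) 2) : ℚ) = ModularCurve.genusFormula N :=
  result_of_inputs N (freeBasisExists N) (H30.basicWeights N) (H36.cuspPackage N)
    discriminant_asymp_h78

end Fermat.Agent.S20
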