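-- Statement S22: the Hecke algebra of cusp forms is a finitely generated ℤ-module.
import Fermat.Statements.S22
import Fermat.Agent.S22.AlgEndgame
import Fermat.Agent.S22.TrivialWeights
import Fermat.Agent.S22.Assembly

set_option autoImplicit false
open CuspForm

namespace Fermat.Agent.S22

theorem result (N : ℕ) [NeZero N] (k : ℤ) (S : Set ℕ) :
    Module.Finite ℤ (CuspForm.heckeAlgebra N k S) := by
  rcases lt_or_ge k 2 with hk | hk
  · exact H27.heckeAlgebra_finite_of_lt_two N hk S
  · obtain ⟨ι, _, _, Φ, hΦ, hT⟩ := H27.periodData N k hk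
    have : Module.Finite ℤ (CuspForm.heckeAlgebra N k ∅) :=
      H27.finite_adjoin_of_intertwiner _ Φ hΦ hT
    exact H27.finite_of_le (CuspForm.heckeAlgebra_mono (Set.empty_subset S))

end Fermat.Agent.S22
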