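-- Statement S23: weight two cusp forms of level Γ₀(N) have an integral structure.
import Fermat.Statements.S23
import Fermat.Agent.S22
import Fermat.Agent.S23.PrimElt_helper35
import Fermat.Agent.S23.BlockE_helper30

set_option autoImplicit false
open CuspForm

namespace Fermat.Agent.S23

theorem result (N : ℕ) [NeZero N] : CuspForm.HasIntegralStructure N 2 := by
  exact H30.hasIntegralStructure_of_primitive N (H35.primitiveExists N)
    (Fermat.Agent.S22.result N 2 ∅)

end Fermat.Agent.S23
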