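-- Statement S24: the genus of the modular function field of level `N` is the genus formula.
import Fermat.Statements.S24
import Fermat.Agent.S24.Top_helper98
import Fermat.Agent.S24.CoverAsm_helper31
import Fermat.Agent.S24.ValSpec_helper90
import Fermat.Agent.S24.PhiData_helper69
import Fermat.Agent.S24.Finite_helper89

set_option autoImplicit false
open ModularCurve

namespace Fermat.Agent.S24

theorem result (N : ℕ) [NeZero N]
    [AlgebraicCurve.HasCanonicalDivisor (K := AlgebraicClosure ℚ) (F := ↥(ModularCurve.modularFunctionFieldBar N))] :
    (AlgebraicCurve.genus (AlgebraicClosure ℚ) ↥(ModularCurve.modularFunctionFieldBar N) : ℚ)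
      = ModularCurve.genusFormula N := by
  obtain ⟨P⟩ := H69.nonempty_phiData N
  exact H98.genus_of_cover N (H31.analyticCoverOf (H90.valSpec N) P (H89.finite_FN P))

end Fermat.Agent.S24
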