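-- Statement S28 (row 27): the special fibre of the Igusa model of X_0(N) over ℤ_(ℓ), ℓ ∤ N, is
-- integral.  The statement below is byte-identical to the frozen statement
-- ModularCurve.IgusaScheme.FermatFrozen.S28 (Fermat/Statements/S28.lean).
-- Proof: reduction maps of the three charts to 𝔽_ℓ((q)) with kernel (ℓ) (Final_helper74.epsData),
-- then tensor-product domain lemma and gluing (Assembly_helper74.isIntegral_of_epsData).
import Fermat.Statements.S28
import Fermat.Agent.S28.Final_helper74

set_option autoImplicit false
open AlgebraicGeometry CategoryTheory CategoryTheory.Limits ModularCurve ModularCurve.IgusaScheme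
noncomputable section
set_option autoImplicit false
open ModularCurve ModularCurve.IgusaScheme

namespace Fermat.Agent.S28

set_option maxHeartbeats 4000000 in
set_option synthInstance.maxHeartbeats 400000 in
theorem result
    (N : ℕ) [NeZero N] (ℓ : ℕ) [Fact ℓ.Prime] (hℓN : ¬ ℓ ∣ N)
    (K : Type) [Field K] [CharP K ℓ] [Algebra ↥(GaloisRep.ratLocalizedAt ℓ) K] :
    IsIntegral ↑(pullback (igusaTo N ℓ)
      (Spec.map (CommRingCat.ofHom (algebraMap ↥(GaloisRep.ratLocalizedAt ℓ) K)))) := by
  exact Fermat.Agent.S28.H74.isIntegral_of_epsData N ℓ (Fermat.Agent.S28.H74.epsData N ℓ hℓN) K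

end Fermat.Agent.S28
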