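import Fermat.Statements.S29
import Fermat.Agent.S29.Top_helper24
import Fermat.Agent.S29.WitAsm_helper53
import Fermat.Agent.S29.PsiAsm_helper27
import Fermat.Agent.S29.CycStmt_helper44
import Fermat.Agent.S29.FrobDensity_helper86
import Fermat.Agent.S29.TopAlgAdapter_helper65
import Fermat.Agent.S29.K0Stmt_helper46

/-!
# S29: the residual Galois representation attached to a weight-2 eigenform of level `Γ₀(N)`

`result = H24.s29_of` (top assembly) applied to

* `H53.witStmt_of_psi` : the witness module (Galois span of an eigen-element of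
  `k₀ ⊗ J₀(N)[p]`), built from `H27.psiStmt` - the Kummer class map
  `Ψ : Hom_par(Γ₀(N), ℤ) → J₀(N)[m]`, Hecke-equivariant for the transfer - and the
  eigen-character in parabolic cohomology `H13.eigStmt`;
* `H44.cycStmt` (cyclotomic character), `H86.frobenius_power` (Frobenius density),
  `H65.topAlgStmt` (two-dimensional constituent of a module with a quadratic relation),
  `H46.k0Stmt` (reduction to a finite residue field).
-/

set_option autoImplicit false
open CuspForm CuspForm.IsNormalizedEigenform

namespace Fermat.Agent.S29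

theorem result
    {N : ℕ} {g : CuspForm (CongruenceSubgroup.Gamma0 N) 2} (hg : g.IsNormalizedEigenform)
    {p : ℕ} (hp : p.Prime) {k : Type} [Field k] [CharP k p]
    (φ : integralClosure ℤ ℂ →+* k) :
    ∃ ρ : ResidualGaloisRep k, ρ.IsAttachedTo g φ ∧
      ∀ ℓ : ℕ, ℓ.Prime → ¬ ℓ ∣ N * p → ρ.IsUnramifiedAt ℓ :=
  H24.s29_of
    (H53.witStmt_of_psi (fun N _ m hm => H27.psiStmt N m hm))
    H44.cycStmt (fun K _ _ g S0 => H86.frobenius_power K g S0) H65.topAlgStmt H46.k0Stmt
    hg hp φ

end Fermat.Agent.S29
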