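-- Statement S31 (helper69): the deformation-ring Galois representation of a Hecke datum is
-- unramified at every prime outside `S`.  Proof: `S31/*_helper69.lean` (abstract top, witness
-- modules inside `J₀(N)[p^M]`, saturation) on top of the landed S29 nodes; the last input is the
-- Kummer class map `H27.psiStmt`.
import Fermat.Statements.S31
import Fermat.Agent.S31.Transfer_helper69
import Fermat.Agent.S29.PsiAsm_helper27

set_option autoImplicit false
variable {p : ℕ} {N : ℕ} [NeZero N] {S : Finset ℕ}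
  {𝒪 : Type} [CommRing 𝒪] [IsDomain 𝒪] [IsDiscreteValuationRing 𝒪]
  [IsAdicComplete (IsLocalRing.maximalIdeal 𝒪) 𝒪]
  {θ : CuspForm.heckeAlgebra N 2 (↑S : Set ℕ) →+* IsLocalRing.ResidueField 𝒪}
  {T : Type} [CommRing T] [IsLocalRing T] [IsNoetherianRing T]
  [IsAdicComplete (IsLocalRing.maximalIdeal T) T] [Algebra 𝒪 T] [IsLocalHom (algebraMap 𝒪 T)]
  [Module.Finite 𝒪 T] [Module.Free 𝒪 T]
open CuspForm CuspForm.HeckeGaloisRepDatum

namespace Fermat.Agent.S31

theorem result (hp : p.Prime)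
    (hp𝒪 : (p : 𝒪) ∈ IsLocalRing.maximalIdeal 𝒪) (hpS : p ∈ S)
    (hNS : ∀ q : ℕ, q.Prime → q ∣ N → q ∈ S)
    (H : CuspForm.HeckeGaloisRepDatum N (↑S : Set ℕ) 𝒪 θ T)
    (q : ℕ) (hq : q.Prime) (hqS : q ∉ S) :
    H.ρ.IsUnramifiedAt q :=
  H69.result_of_psiStmt (fun N _ m hm => Fermat.Agent.S29.H27.psiStmt N m hm)
    hp hp𝒪 hpS hNS H q hq hqS

end Fermat.Agent.S31
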