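-- Statement S37 (row 36): ModularCurve.specializationExists_JZero.
-- Proof: route K (reduction kernel of divisors with trivial reduction on the two j-charts),
-- see Fermat/Agent/S37/Stmts_helper27.lean for the statements and the node files named below.
import Fermat.Statements.S37
import Fermat.Agent.S37.Stmts_helper27
import Fermat.Agent.S37.ConstTop_helper27
import Fermat.Agent.S37.GalStmt_helper72
import Fermat.Agent.S37.ES_helper82
import Fermat.Agent.S37.TransferLevel_helper87
import Fermat.Agent.S37.ConstCoreInst_helper8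
import Fermat.Agent.S18.TopFin_helper19

set_option autoImplicit false
open ModularCurve

namespace Fermat.Agent.S37

theorem result (N p : ℕ) [NeZero N] (hcomm : ModularCurve.HeckeOperatorsCommuteBar N) : letI := ModularCurve.heckeModuleBar N; ∀ (_ : SMulCommClass (AlgebraicClosure ℚ ≃ₐ[ℚ] AlgebraicClosure ℚ) ModularCurve.HeckeAlg (ModularCurve.JZero N)), ModularCurve.SpecializationExists (K := ℚ) (L := AlgebraicClosure ℚ) N p (ModularCurve.JZero N) :=
  H27.result_of_const N p hcomm Fermat.Agent.S18.H19.modelKumStmt
    (fun ℓ hℓ hℓN A hA => H72.galStmt N ℓ hℓ hℓN A hA)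
    (fun ℓ _ hℓ hℓN A hA φ hφ => H82.esStmt N ℓ hℓ hℓN A hA φ hφ)
    (fun ℓ hℓ hℓN A hA => H27.constStmt_of_levels N ℓ A
      (fun h2 h3 => ⟨H87.transferStmt_j N A, H08.constCore_j N ℓ hℓ hℓN h2 h3 A hA⟩)
      (fun h => by
        subst h
        exact ⟨H87.transferStmt_two N A hA, H08.constCore_two N hℓN A hA⟩)
      (fun h => by
        subst h
        exact ⟨H87.transferStmt_three N A hA, H08.constCore_three N hℓN A hA⟩))

end Fermat.Agent.S37
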