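import Fermat.Statements.S42
import Fermat.Agent.S29.S42Top_helper2
import Fermat.Agent.S29

/-!
# S42: residual attachment for the Frey package, at every level `M`

`result = H02.s42_of_s29` applied to the proved S29 (`Fermat.Agent.S29.result`).
-/

set_option autoImplicit false
open FreyPackage

namespace Fermat.Agent.S42

theorem result (P : FreyPackage) :
    ∀ M : ℕ, 0 < M → P.EigenformResidualAttachmentAt M :=
  Fermat.Agent.S29.H02.s42_of_s29 (@Fermat.Agent.S29.result) P

end Fermat.Agent.S42
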