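import Fermat.Statements.S49
import Fermat.Agent.S49.QCoeff_h78
import Fermat.Agent.S49.Mod3_h78
import Fermat.Agent.S49.LinAlg_h79
import Fermat.Agent.S49.Recur_h79

set_option autoImplicit false
open CuspForm EisensteinWeightOne CongruenceSubgroup ModularFormClass
open FLT FLT.AbstractIntegralStructure

namespace Fermat.Agent.S49

theorem cong_of_bridge {a af : ℕ → ℤ}
    (hcong0 : ∀ n : ℕ, (3 : ℤ) ∣ af n - (bridgeProduct a).coeff n) (n : ℕ) :
    (3 : ℤ) ∣ af n - a n := by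
  have h1 := hcong0 n
  have h2 := H78.bridgeProduct_coeff_mod3 a n
  have h3 : af n - a n =
      (af n - (bridgeProduct a).coeff n) + ((bridgeProduct a).coeff n - a n) := by ring
  rw [h3]
  exact dvd_add h1 h2

theorem exists_lift {N : ℕ} [NeZero N] (h : CuspForm.HasIntegralBasis N)
    (f0 : CuspForm (Gamma0 N) 2) (hI : H78.idealM f0 ≠ ⊤) :
    ∃ (w : CuspForm (Gamma0 N) 2) (χ : CuspForm.heckeAlgebra N 2 ∅ →+* integralClosure ℤ ℂ)
      (𝔪' : Ideal (integralClosure ℤ ℂ)), w ≠ 0 ∧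
      (∀ T : CuspForm.heckeAlgebra N 2 ∅, T.1 w = ((χ T : integralClosure ℤ ℂ) : ℂ) • w) ∧
      𝔪'.IsMaximal ∧ ∀ T : CuspForm.heckeAlgebra N 2 ∅, T ∈ H78.idealM f0 → χ T ∈ 𝔪' := by
  have hspan : Submodule.span ℂ
      ((CuspForm.intLattice N 2 : Submodule ℤ (CuspForm (Gamma0 N) 2)) :
        Set (CuspForm (Gamma0 N) 2)) = ⊤ := by
    rw [← H78.qIntegralSet_eq]
    exact h
  exact H79.abstract_lift (CuspForm.heckeAlgebra N 2 ∅).val.toRingHom Subtype.val_injective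
    (CuspForm.intLattice N 2) (CuspForm.intLattice_fg N 2) hspan
    (fun t x hx => CuspForm.mem_intLattice_of_mem_heckeAlgebra (by norm_num) t.2 hx)
    (H78.idealM f0) hI

theorem result
    {N : ℕ} [NeZero N] (h : CuspForm.HasIntegralBasis N) {a : ℕ → ℤ}
    (heig : FormalHecke.IsEigensystem
      (fun ℓ => if ℓ ∣ N then 0 else ((chiNegThree ℓ : ℤ) : ℤ)) a)
    (hreal : CuspForm.IsLatticeRealized N a) :
    ∃ (f : CuspForm (Gamma0 N) 2) (_ : f.IsNormalizedEigenform)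
      (𝔪' : Ideal (integralClosure ℤ ℂ)), 𝔪'.IsMaximal ∧
      ((3 : ℕ) : integralClosure ℤ ℂ) ∈ 𝔪' ∧
      ∀ (ℓ : ℕ) (_ : ℓ.Prime) (_ : ¬ ℓ ∣ N),
        ∃ c : integralClosure ℤ ℂ, (c : ℂ) = ModularFormClass.qCoeff f ℓ ∧
          c - (a ℓ : integralClosure ℤ ℂ) ∈ 𝔪' := by
  classical
  obtain ⟨f0, hf0, af, haf, hcong0⟩ := hreal
  have hcong : ∀ n, (3 : ℤ) ∣ af n - a n := cong_of_bridge hcong0
  obtain ⟨w, χ, 𝔪', hw0, hχ, hmax', hmem'⟩ := exists_lift h f0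
    (fun htop => H78.one_notMem haf hcong heig (htop ▸ Submodule.mem_top))
  -- eigenvalues and coefficients
  let lam : ℕ → ℂ := fun p =>
    if hp : p.Prime then
      (if hpN : p ∣ N then (χ (CuspForm.heckeAlgebra.U hp hpN (Set.notMem_empty p)) : ℂ)
        else (χ (CuspForm.heckeAlgebra.T hp hpN (Set.notMem_empty p)) : ℂ))
    else 0
  have hlamT : ∀ p (hp : p.Prime) (hpN : ¬ p ∣ N),
      lam p = χ (CuspForm.heckeAlgebra.T hp hpN (Set.notMem_empty p)) := fun p hp hpN => by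
    simp only [lam, dif_pos hp, dif_neg hpN]
  have hlamU : ∀ p (hp : p.Prime) (hpN : p ∣ N),
      lam p = χ (CuspForm.heckeAlgebra.U hp hpN (Set.notMem_empty p)) := fun p hp hpN => by
    simp only [lam, dif_pos hp, dif_pos hpN]
  have hbT : ∀ p, p.Prime → ¬ p ∣ N → ∀ n,
      qCoeff ⇑w (n * p) + (if p ∣ n then (p : ℂ) * qCoeff ⇑w (n / p) else 0) =
        lam p * qCoeff ⇑w n := fun p hp hpN n => by
    have h1 := hχ (CuspForm.heckeAlgebra.T hp hpN (Set.notMem_empty p))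
    have h2 := congrArg (fun g : CuspForm (Gamma0 N) 2 => qCoeff ⇑g n) h1
    simp only [H78.qCoeff_smul] at h2
    rw [hlamT p hp hpN, ← h2]
    exact (H78.qCoeff_heckeTLin hp hpN w n).symm
  have hbU : ∀ p, p.Prime → p ∣ N → ∀ n, qCoeff ⇑w (n * p) = lam p * qCoeff ⇑w n :=
      fun p hp hpN n => by
    have h1 := hχ (CuspForm.heckeAlgebra.U hp hpN (Set.notMem_empty p))
    have h2 := congrArg (fun g : CuspForm (Gamma0 N) 2 => qCoeff ⇑g n) h1
    simp only [H78.qCoeff_smul] at h2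
    rw [hlamU p hp hpN, ← h2]
    exact (H78.qCoeff_heckeULin hp hpN w n).symm
  have hb1 : qCoeff ⇑w 1 ≠ 0 := fun hb1 => hw0 (H78.eq_zero_of_qCoeff w (fun n => by
    rcases Nat.eq_zero_or_pos n with rfl | hn
    · exact H78.qCoeff_zero_idx w
    · exact H79.coeff_eq_zero_of_one N lam (fun n => qCoeff ⇑w n) hb1 hbT hbU n hn))
  -- the normalised eigenform
  have hc1 : qCoeff ⇑((qCoeff ⇑w 1)⁻¹ • w) 1 = 1 := by
    rw [H78.qCoeff_smul]
    exact inv_mul_cancel₀ hb1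
  have hcT : ∀ p, p.Prime → ¬ p ∣ N → ∀ n,
      qCoeff ⇑((qCoeff ⇑w 1)⁻¹ • w) (n * p) +
        (if p ∣ n then (p : ℂ) * qCoeff ⇑((qCoeff ⇑w 1)⁻¹ • w) (n / p) else 0) =
        lam p * qCoeff ⇑((qCoeff ⇑w 1)⁻¹ • w) n := fun p hp hpN n => by
    simp only [H78.qCoeff_smul]
    have e := hbT p hp hpN n
    by_cases hn : p ∣ n
    · rw [if_pos hn] at e ⊢
      linear_combination (qCoeff ⇑w 1)⁻¹ * e
    · rw [if_neg hn] at e ⊢
      linear_combination (qCoeff ⇑w 1)⁻¹ * e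
  have hcU : ∀ p, p.Prime → p ∣ N → ∀ n,
      qCoeff ⇑((qCoeff ⇑w 1)⁻¹ • w) (n * p) =
        lam p * qCoeff ⇑((qCoeff ⇑w 1)⁻¹ • w) n := fun p hp hpN n => by
    simp only [H78.qCoeff_smul]
    linear_combination (qCoeff ⇑w 1)⁻¹ * hbU p hp hpN n
  have hcp : ∀ p, p.Prime → qCoeff ⇑((qCoeff ⇑w 1)⁻¹ • w) p = lam p := fun p hp => by
    by_cases hpN : p ∣ N
    · have e := hcU p hp hpN 1
      rwa [one_mul, hc1, mul_one] at e
    · have e := hcT p hp hpN 1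
      rwa [one_mul, hc1, mul_one, if_neg (by simpa using hp.one_lt.ne'), add_zero] at e
  obtain ⟨hcmul, hcrec1, hcrec2⟩ := H79.normalizedEigenform_fields N
    (fun n => qCoeff ⇑((qCoeff ⇑w 1)⁻¹ • w) n) hc1
    (fun p hp hpN n => by
      show _ = qCoeff ⇑((qCoeff ⇑w 1)⁻¹ • w) p * _
      rw [hcp p hp]
      exact hcT p hp hpN n)
    (fun p hp hpN n => by
      show _ = qCoeff ⇑((qCoeff ⇑w 1)⁻¹ • w) p * _
      rw [hcp p hp]
      exact hcU p hp hpN n)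
  refine ⟨(qCoeff ⇑w 1)⁻¹ • w, ⟨hc1, hcmul, hcrec1, hcrec2⟩, 𝔪', hmax', ?_, fun ℓ hℓ hℓN =>
    ⟨χ (CuspForm.heckeAlgebra.T hℓ hℓN (Set.notMem_empty ℓ)), ?_, ?_⟩⟩
  · have h3 := hmem' 3 (H78.three_mem haf)
    rw [map_ofNat] at h3
    exact_mod_cast h3
  · rw [← hlamT ℓ hℓ hℓN]
    exact (hcp ℓ hℓ).symm
  · have h4 := hmem' _ (H78.T_sub_mem haf hcong heig hℓ hℓN)
    rw [map_sub, eq_intCast, map_intCast] at h4
    exact h4

end Fermat.Agent.S49
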