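-- Statement S52 (the 3-5 switch): `Fermat.Agent.S52.result`, byte-identical to the frozen
-- statement WeierstrassCurve.FermatFrozen.S52 (Fermat/Statements/S52.lean).
import Fermat.Statements.S52
import Fermat.Agent.S52.Final_helper43
import Fermat.Agent.S52.FamId_helper48
import Fermat.Agent.S52.FamKlein_helper48
import Fermat.Agent.S52.FamKleinSix_helper48
import Fermat.Agent.S52.FamMap_helper48
import Fermat.Agent.S52.FamDeg_helper82
import Fermat.Agent.S52.ModFiveInst_helper28

/-!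
# S52: the 3-5 switch

`H43.switch_of_data` (blocks B, C, D, G, IRR3 and the top assembly) instantiated with the Klein
family `H48.famC4, H48.famC6, H48.famD`:

* ring-hom compatibility, values at `b = 0`, homogeneity: `FamMap_helper48`;
* (F1), (F3): `FamId_helper48`; (F2) for `H`, `f`, `T`: `FamKlein_helper48`,
  `FamKleinSix_helper48`;
* `degD`, `hneD`: `FamDeg_helper82`;
* the mod-5 congruence of point counts along the family: `ModFiveInst_helper28`.
-/

set_option autoImplicit false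
open WeierstrassCurve WeierstrassCurve.Affine WeierstrassCurve.Affine.Point
open CuspForm ModularFormClass UpperHalfPlane
open WeierstrassCurve

namespace Fermat.Agent.S52

theorem result (W : WeierstrassCurve ℤ) (hΔ : W.Δ ≠ 0) (hW : W.IsSemistableModel) (h5 : W.ModRepIsIrreducible 5) : ∃ W' : WeierstrassCurve ℤ, W'.Δ ≠ 0 ∧ W'.IsSemistableModel ∧ W'.ModRepIsIrreducible 3 ∧ ∀ ℓ : ℕ, ℓ.Prime → W.IsGoodPrimeFor ℓ → W'.IsGoodPrimeFor ℓ → ℓ ≠ 5 → (5 : ℤ) ∣ (W'.apOfModel ℓ - W.apOfModel ℓ) := by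
  refine H43.switch_of_data (fun R _ => @H48.famC4 R _) (fun R _ => @H48.famC6 R _)
    (fun R _ => @H48.famD R _)
    (fun φ c4 c6 a b => H48.map_famC4 φ c4 c6 a b)
    (fun φ c4 c6 a b => H48.map_famC6 φ c4 c6 a b)
    (fun φ c4 c6 a b => H48.map_famD φ c4 c6 a b)
    ?_ ?_ ?_
    (fun R _ c4 c6 a b t => H48.famC4_smul c4 c6 t a b)
    (fun R _ c4 c6 a b t => H48.famC6_smul c4 c6 t a b)
    (fun R _ c4 c6 a b => H48.fam_F1 c4 c6 a b)
    (fun R _ u v a b => (H48.famC4_klein u v a b).symm)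
    (fun R _ u v a b => H48.famD_klein u v a b)
    (fun c4 c6 => ⟨H48.famTheta (Polynomial.C c4) (Polynomial.C c6) Polynomial.X, by
      rw [H48.derivative_famD]; exact H48.fam_F3 _ _ _⟩)
    (fun c4 c6 h => H82.degD c4 c6 h)
    (fun c4 c6 h => H82.hneD c4 c6 h)
    (fun ℓ _ hl2 hl3 hl5 c4 c6 a b hd hD =>
      H28.mod5_of_klein ℓ hl2 hl3 hl5 (fun u v a b => H48.famC4_klein u v a b)
        (fun u v a b => H48.famC6_klein u v a b) (fun u v a b => H48.famD_klein u v a b)
        c4 c6 a b hd hD)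
    W hΔ hW
  · intro R _ c4 c6 a
    have h := H48.famC4_smul c4 c6 a 1 0
    rw [mul_one, mul_zero, H48.famC4_one_zero] at h
    show H48.famC4 c4 c6 a 0 = c4 * a ^ 20
    rw [h, mul_comm]
  · intro R _ c4 c6 a
    have h := H48.famC6_smul c4 c6 a 1 0
    rw [mul_one, mul_zero, H48.famC6_one_zero] at h
    show H48.famC6 c4 c6 a 0 = c6 * a ^ 30
    rw [h, mul_comm]
  · intro R _ c4 c6 a
    have h := H48.famD_smul c4 c6 a 1 0
    rw [mul_one, mul_zero, H48.famD_one_zero, mul_one] at h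
    exact h

end Fermat.Agent.S52
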