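import Fermat.Statements.S53
import Fermat.Agent.S53.StageA
import Fermat.Agent.S53.FamilyC
import Fermat.Agent.S53.StageC
import Fermat.Agent.S53.StageD
import Fermat.Agent.S53.StageE

set_option autoImplicit false
set_option autoImplicit false
open GaloisRep

namespace Fermat.Agent.S53

open Fermat.Agent.S53.H84 in
theorem result
    (𝒪 : Type) [CommRing 𝒪] [IsDomain 𝒪] [IsDiscreteValuationRing 𝒪]
    [IsAdicComplete (IsLocalRing.maximalIdeal 𝒪) 𝒪] [Finite (IsLocalRing.ResidueField 𝒪)]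
    (ρbar : ResidualGaloisRep (IsLocalRing.ResidueField 𝒪))
    (𝒟 : ∀ ⦃A : Type⦄ [CommRing A] [IsLocalRing A] [Algebra 𝒪 A], GaloisRepAdic A → Prop)
    (habs : ρbar.IsAbsolutelyIrreducible)
    (h𝒟 : GaloisRep.IsDeformationCondition 𝒪 𝒟)
    (hbar : 𝒟 (GaloisRepAdic.ofResidualGaloisRep ρbar))
    (hfin : GaloisRep.TangentFinite 𝒪 ρbar 𝒟) :
    Nonempty (GaloisRep.DeformationRingData 𝒪 ρbar 𝒟) := by
  obtain ⟨b, rt, u, g₀, hrt, hs, rb, hrb, hrb_eq, hsl, heq⟩ := StageA.exists_setup ρbar habs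
  have hm : Good 𝒟 rt u g₀ (mP rt) :=
    StageA.good_mP ρbar 𝒟 h𝒟 hbar b rt u g₀ hrt rb hrb hrb_eq hsl heq
  obtain ⟨d, x, hx, hgen⟩ := StageC.exists_generators ρbar 𝒟 h𝒟 hfin b rt u g₀ hrt hs hm
  obtain ⟨R, _, _, _, _, _, _, Φ, hsurj, hgood, hdense, hcof⟩ :=
    StageD.exists_proRing (𝒪 := 𝒪) (P := PRing 𝒪) (mP rt) (FamilyM.mP_isMaximal rt)
      (fun c hc => by
        rw [MvPolynomial.algebraMap_eq]
        exact FamilyM.C_mem_mP rt hc)
      (fun p => by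
        obtain ⟨c, hc⟩ := FamilyM.exists_C_sub_mem_mP rt p
        exact ⟨c, by rw [MvPolynomial.algebraMap_eq]; exact hc⟩)
      {J | Good 𝒟 rt u g₀ J} hm
      (fun J hJ => FamilyA.Good.le_mP hJ)
      (fun J hJ => FamilyA.Good.exists_pow_le hJ)
      (fun J hJ J' hJ' => FamilyC.Good.inf h𝒟 hJ hJ')
      (fun J hJ J' hle hJ' => FamilyB.Good.of_le h𝒟 hJ hle hJ')
      x hx (fun J hJ p => hgen J hJ p)
  exact StageE.nonempty_deformationRingData ρbar 𝒟 habs h𝒟 b rt u g₀ hrt hs R Φ hsurj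
    hgood hdense hcof

end Fermat.Agent.S53
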