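import Fermat.Statements.S57
import Fermat.Agent.S57.PowerSeriesReg_helper54
import Fermat.Agent.S57.Core_helper57
import Fermat.Agent.S57.Wiring_helper94

set_option autoImplicit false
open Algebra Algebra.PatchingLevel

namespace Fermat.Agent.S57

theorem result
    {𝒪 : Type} [CommRing 𝒪] [IsDomain 𝒪] [IsDiscreteValuationRing 𝒪]
    {r : ℕ} {R : Type} [CommRing R] [Algebra 𝒪 R]
    {M : Type} [AddCommGroup M] [Module R M] [Nontrivial M]
    (L : Algebra.PatchingLevel 𝒪 r R M ⊥) :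
    Module.Free R M ∧ Module.annihilator R M = ⊥ ∧
      RingHom.ker L.ψ = Ideal.span (Set.range fun i : Fin r => L.φ (MvPowerSeries.X i)) := by
  obtain ⟨ϖ, hϖ⟩ := IsDiscreteValuationRing.exists_irreducible 𝒪
  have hϖm : ϖ ∈ IsLocalRing.maximalIdeal 𝒪 := by
    rw [IsLocalRing.mem_maximalIdeal]
    exact hϖ.not_isUnit
  exact Fermat.Agent.S57.H94.result_of_core_cons L hϖm
    (Fermat.Agent.S57.H54.isWeaklyRegular_C_cons_X_of_ne_zero r ϖ hϖ.ne_zero)
    (fun _ rs hlen hmem hreg =>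
      Fermat.Agent.S57.H57.free_of_regular (r + 1) (MvPowerSeries (Fin r) 𝒪)
        (MvPowerSeries.C ϖ :: List.ofFn MvPowerSeries.X)
        (Fermat.Agent.S57.H54.length_C_cons_X r ϖ)
        (Fermat.Agent.S57.H54.maximalIdeal_eq_ofList r ϖ hϖ).symm L.N rs hlen hmem hreg)

end Fermat.Agent.S57
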